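/-
MW (S17), top level — the final wire.

`J₀(N)(ℚ)` is finitely generated as soon as, in genus `≥ 1`, some subgroup `J` of `JZero N`
containing the rational points carries a nonnegative quasi-parallelogram Northcott function.
Inputs on main: (DIV) `MW.DivC.jZero_divisible`, weak Mordell–Weil + descent
`MW.WMW.FinalFG.fg_of_divisible_of_height`, genus zero `MW.Top.GenusZero.fg_of_genus_zero`.
-/
import Mathlib
import Fermat.Agent.MW.WMW.FinalFG
import Fermat.Agent.MW.DivC.Main
import Fermat.Agent.MW.Top.GenusZero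

set_option autoImplicit false

noncomputable section

namespace Fermat.Agent.MW.Top.Wire

open AlgebraicCurve ModularCurve

/-- **S17 from a height** on a subgroup containing the rational points (genus `≥ 1`). -/
theorem fg_of_exists_height (N : ℕ) [NeZero N]
    (H : 1 ≤ genusFF (AlgebraicClosure ℚ) ↥(modularFunctionFieldBar N) →
      ∃ J : AddSubgroup (JZero N),
        (∀ x : JZero N, (∀ σ : AlgebraicClosure ℚ ≃ₐ[ℚ] AlgebraicClosure ℚ, σ • x = x) → x ∈ J) ∧
        ∃ q : J → ℝ, (∀ x, 0 ≤ q x) ∧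
          (∃ C : ℝ, ∀ x y, |q (x + y) + q (x - y) - 2 * (q x + q y)| ≤ C) ∧
          ∀ T : ℝ, {x | q x ≤ T}.Finite) :
    AddGroup.FG ↥(FixedPoints.addSubgroup
      (AlgebraicClosure ℚ ≃ₐ[ℚ] AlgebraicClosure ℚ) (JZero N)) := by
  by_cases hg : genusFF (AlgebraicClosure ℚ) ↥(modularFunctionFieldBar N) = 0
  · exact Fermat.Agent.MW.Top.GenusZero.fg_of_genus_zero N hg
  · obtain ⟨J, hJ, q, h0, hP, hN⟩ := H (Nat.one_le_iff_ne_zero.mpr hg)
    have hle : FixedPoints.addSubgroup
        (AlgebraicClosure ℚ ≃ₐ[ℚ] AlgebraicClosure ℚ) (JZero N) ≤ J :=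
      fun x hx => hJ x hx
    exact Fermat.Agent.MW.WMW.FinalFG.fg_of_divisible_of_height N
      (Fermat.Agent.MW.DivC.jZero_divisible N (by norm_num))
      (AddSubgroup.inclusion hle) (AddSubgroup.inclusion_injective hle) q h0 hP hN

end Fermat.Agent.MW.Top.Wire
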