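/-
MW (S17), top level — S17 from ONE term of `HG.CurveD`.

`J₀(N)(ℚ)` is finitely generated as soon as, in genus `≥ 1`, there are a global setting `𝒮`
(`HG.Setting`) for the function field of `X₀(N)` over `ℚ̄` and a subgroup `J` of `JZero N`
containing the rational points, together with the list of facts `HG.CurveD 𝒮 J`.
(`HG.AssemblyC.exists_height` turns `CurveD` into a height; `Top.Wire` does the rest.)
-/
import Mathlib
import Fermat.Agent.MW.Top.Wire
import Fermat.Agent.MW.HG.AssemblyC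

set_option autoImplicit false

noncomputable section

namespace Fermat.Agent.MW.Top.OfCurveD

open AlgebraicCurve ModularCurve Fermat.Agent.MW.HtM Fermat.Agent.MW.HG

/-- **S17 from a term of `HG.CurveD`** (genus `≥ 1`). -/
theorem fg_of_exists_curveD (N : ℕ) [NeZero N]
    (H : 1 ≤ genusFF (AlgebraicClosure ℚ) ↥(modularFunctionFieldBar N) →
      ∃ (V : Type) (Ab : AbsFamily (AlgebraicClosure ℚ) V)
        (pinf : Place (AlgebraicClosure ℚ) ↥(modularFunctionFieldBar N))
        (t : ↥(modularFunctionFieldBar N)) (m : ℕ) (𝒮 : Setting Ab pinf t m)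
        (J : AddSubgroup (JZero N)),
        (∀ x : JZero N, (∀ σ : AlgebraicClosure ℚ ≃ₐ[ℚ] AlgebraicClosure ℚ, σ • x = x) → x ∈ J) ∧
        Nonempty (CurveD 𝒮 J)) :
    AddGroup.FG ↥(FixedPoints.addSubgroup
      (AlgebraicClosure ℚ ≃ₐ[ℚ] AlgebraicClosure ℚ) (JZero N)) := by
  refine Fermat.Agent.MW.Top.Wire.fg_of_exists_height N fun hg => ?_
  obtain ⟨V, Ab, pinf, t, m, 𝒮, J, hJ, ⟨𝒟⟩⟩ := H hg
  exact ⟨J, hJ, Fermat.Agent.MW.HG.AssemblyC.exists_height 𝒟⟩

end Fermat.Agent.MW.Top.OfCurveD
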