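/-
MW (S17), top level — THE CLOSED TERM (helper21; independent end-to-end seam test of item (I) of
chief ruling #6): for the modular function field of genus `≥ 1` there are a global setting `𝒮`
and a subgroup `J ⊇ J₀(N)(ℚ)` of `JZero N` with `Nonempty (HG.CurveD 𝒮 J)` — the literal
hypothesis `H` of `Top.OfCurveD.fg_of_exists_curveD`.

Chain (every supplier on main):
  `Ht.RatCoord.exists_rational_coordinate_exact`  (t, m = 2g + 1)
  → `Ht.RamDiv.exists_ramDiv_modular` (𝔯, deg 𝔯 = 2g + m − 1), the fibres of supp 𝔯 (S₀)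
  → `Gen.TranslatesClosed.exists_translates` (K₀; the good translates for every U₀ ≤ Gal(ℚ̄/K₀))
  → `Ht.AbsQb.exists_finset_isComplement_fixingSubgroup` (transversal)
  → `HtM.LocalHtFF.exists_coords`, `localHtFF`, `HG.SettingInst.modSetting` (𝒮; MLe, Lip, RamLe)
  → `Gen.ClSeam.exists_cl_fields_closed` (cl, d₀, class-zero fields, moving lemma)
  → `Gen.FixedBasis` (w, w₁, κ := w (2g − 1)), `HG.NorthInst.north_modSetting`
  → `HG.CurveInst.nonempty_curveD`.
-/
import Mathlib
import Fermat.Agent.MW.Top.OfCurveD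
import Fermat.Agent.MW.Gen.ClSeam
import Fermat.Agent.MW.Gen.TranslatesClosed
import Fermat.Agent.MW.Gen.FixedBasis
import Fermat.Agent.MW.HG.NorthInst
import Fermat.Agent.MW.HG.RamInst
import Fermat.Agent.MW.Ht.RatCoordExact
import Fermat.Agent.MW.Ht.Transversal
import Fermat.Agent.MW.HtM.LocalHtFF

set_option autoImplicit false

noncomputable section

namespace Fermat.Agent.MW.Top.CurveDClosed

open AlgebraicCurve ModularCurve Module IntermediateField
open Fermat.Agent.MW Fermat.Agent.MW.HtM Fermat.Agent.MW.HQ Fermat.Agent.MW.HG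
open Fermat.Agent.Lib.FF Fermat.Agent.Lib.FF.PlaceInf
open Fermat.Agent.MW.Ht.AbsQb Fermat.Agent.MW.HG.SettingInst Fermat.Agent.MW.HtM.LocalHtFF
open Fermat.Agent.MW.Gen

local notation "Qb" => AlgebraicClosure ℚ
local notation "GQ" => (AlgebraicClosure ℚ ≃ₐ[ℚ] AlgebraicClosure ℚ)

variable (N : ℕ) [NeZero N]

/-- `2g + 1` is prime to `g + 1`. -/
theorem coprime_aux1 (g : ℕ) : Nat.Coprime (2 * g + 1) (g + 1) := by
  have h1 : Nat.Coprime (g + 1) g := by simp
  have h2 : 2 * g + 1 = g + (g + 1) := by ring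
  rw [h2]
  exact (Nat.coprime_add_self_left.mpr h1.symm)

/-- `2g + 1` is prime to `2g(2g + 1) + 1`. -/
theorem coprime_aux2 (g : ℕ) : Nat.Coprime (2 * g + 1) (2 * g * (2 * g + 1) + 1) := by
  have h2 : 2 * g * (2 * g + 1) + 1 = 1 + (2 * g) * (2 * g + 1) := by ring
  rw [h2, Nat.coprime_add_mul_right_right]
  exact Nat.coprime_one_right _

set_option maxHeartbeats 1600000 in
/-- **The closed term**: the hypothesis `H` of `Top.OfCurveD.fg_of_exists_curveD`. -/
theorem exists_curveD (hg : 1 ≤ genusFF Qb ↥(modularFunctionFieldBar N)) :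
    ∃ (V : Type) (Ab : AbsFamily Qb V) (pinf : Place Qb ↥(modularFunctionFieldBar N))
      (t : ↥(modularFunctionFieldBar N)) (m : ℕ) (𝒮 : Setting Ab pinf t m)
      (J : AddSubgroup (JZero N)),
      (∀ x : JZero N, (∀ σ : GQ, σ • x = x) → x ∈ J) ∧ Nonempty (CurveD 𝒮 J) := by
  classical
  obtain ⟨t, htfix, htreg, htpole, httr, hfd, hrank⟩ :=
    Fermat.Agent.MW.Ht.RatCoord.exists_rational_coordinate_exact N
  have := hfd
  have h := Fermat.Agent.Lib.FF.Res.isFF1_modular N
  have hm : 0 < 2 * genusFF Qb ↥(modularFunctionFieldBar N) + 1 := Nat.succ_pos _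
  -- the ramification divisor and the fibres of its points
  obtain ⟨𝔯, h𝔯inf, h𝔯, h𝔯deg⟩ :=
    Fermat.Agent.MW.Ht.RamDiv.exists_ramDiv_modular N htreg htpole hm
  choose T _hTcard hT using fun τ : Qb =>
    Fermat.Agent.MW.Ht.RamDiv.exists_fibre_finset h htreg htpole hm τ
  obtain ⟨S₀, hS₀⟩ : ∃ S₀ : Finset (Place Qb ↥(modularFunctionFieldBar N)),
      ∀ P : Place Qb ↥(modularFunctionFieldBar N),
        (∃ q ∈ 𝔯.support, pval P t = pval q t) → P ∈ S₀ := by
    refine ⟨insert (placeInfL Qb N) (𝔯.support.biUnion fun r => T (pval r t)), ?_⟩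
    rintro P ⟨q, hq, hPq⟩
    by_cases hP : P = placeInfL Qb N
    · rw [hP]
      exact Finset.mem_insert_self _ _
    · exact Finset.mem_insert_of_mem
        (Finset.mem_biUnion.mpr ⟨q, hq, (hT (pval q t) P).mpr ⟨hP, hPq⟩⟩)
  -- the good translates: the number field `K₀`
  have hco : Nat.Coprime (finrank Qb⟮t⟯ ↥(modularFunctionFieldBar N))
      (genusFF Qb ↥(modularFunctionFieldBar N) + 1) := by
    rw [hrank]
    exact coprime_aux1 _
  obtain ⟨K₀, hK₀, htr⟩ :=
    Fermat.Agent.MW.Gen.TranslatesClosed.exists_translates N t htreg httr hco S₀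
  have := hK₀
  obtain ⟨Sg₀, -, -, hS⟩ := exists_finset_isComplement_fixingSubgroup K₀
  -- the setting
  obtain ⟨n₀, n₁, x₀, x₁, hc⟩ := exists_coords (K := Qb) t httr
  obtain ⟨L, hL⟩ : ∃ L : LocalHt absFamily (placeInfL Qb N) t
      (2 * genusFF Qb ↥(modularFunctionFieldBar N) + 1),
      L = localHtFF absFamily httr hc hm htreg htpole := ⟨_, rfl⟩
  have hram : (modSetting L hm htfix htreg htpole K₀.fixingSubgroup Sg₀ hS).RamLe := by
    rw [hL]
    exact RamInst.ram_modSetting httr hc hm htfix htreg htpole K₀.fixingSubgroup Sg₀ hS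
  refine ⟨Pla, absFamily, placeInfL Qb N, t, 2 * genusFF Qb ↥(modularFunctionFieldBar N) + 1,
    modSetting L hm htfix htreg htpole K₀.fixingSubgroup Sg₀ hS,
    ClSeam.JU N K₀.fixingSubgroup, ClSeam.fixed_mem_JU K₀.fixingSubgroup, ?_⟩
  -- the class map
  obtain ⟨cl, d₀, hcl, hcl0, hfun, hrep⟩ :=
    ClSeam.exists_cl_fields_closed L hm htfix htreg htpole K₀.fixingSubgroup Sg₀ hS
  -- the fixed bases
  have hw : ∀ M, CurveInst.IsFixedBasis
      (modSetting L hm htfix htreg htpole K₀.fixingSubgroup Sg₀ hS) (FixedBasis.w N M) M :=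
    fun M => ⟨fun g hg i => by
      obtain ⟨σ, rfl⟩ := hg
      exact FixedBasis.w_fixed N M i σ, FixedBasis.w_li N M, FixedBasis.w_span N M⟩
  have hn : genusFF Qb ↥(modularFunctionFieldBar N) ≤
      (2 * genusFF Qb ↥(modularFunctionFieldBar N) *
        (2 * genusFF Qb ↥(modularFunctionFieldBar N) + 1) + 1) + 1 := by nlinarith
  have hw₁ : CurveInst.IsFixedBasis
      (modSetting L hm htfix htreg htpole K₀.fixingSubgroup Sg₀ hS)
      (FixedBasis.w1 N _ hn)
      ((2 * genusFF Qb ↥(modularFunctionFieldBar N) *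
        (2 * genusFF Qb ↥(modularFunctionFieldBar N) + 1) + 1) +
        genusFF Qb ↥(modularFunctionFieldBar N)) :=
    ⟨fun g hg i => by
      obtain ⟨σ, rfl⟩ := hg
      exact FixedBasis.w1_fixed N hn i σ, FixedBasis.w1_li N hn, FixedBasis.w1_span N hn⟩
  -- `κ`: the fixed basis of `L((2g − 1)·∞)`, reindexed by `Fin g`
  have hl : FixedBasis.l N (2 * genusFF Qb ↥(modularFunctionFieldBar N) - 1)
      = genusFF Qb ↥(modularFunctionFieldBar N) := FixedBasis.l_canon N hg
  obtain ⟨κ, hκ⟩ : ∃ κ : Fin (genusFF Qb ↥(modularFunctionFieldBar N)) →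
      ↥(modularFunctionFieldBar N),
      κ = fun i => FixedBasis.w N (2 * genusFF Qb ↥(modularFunctionFieldBar N) - 1)
        (Fin.cast hl.symm i) := ⟨_, rfl⟩
  have hκfam : (modSetting L hm htfix htreg htpole K₀.fixingSubgroup Sg₀ hS).Fam κ
      (2 * genusFF Qb ↥(modularFunctionFieldBar N) - 1) := by
    rw [hκ]
    exact ⟨fun i => (hw _).fam.reg _, fun i => (hw _).fam.pole _,
      fun g hg i => (hw _).fam.fixed g hg _⟩
  have hκli : LinearIndependent Qb κ := by
    rw [hκ]
    exact (FixedBasis.w_li N _).comp _ (Fin.cast_injective _)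
  have hMK : 2 * genusFF Qb ↥(modularFunctionFieldBar N) - 1 + 1
      ≤ 2 * genusFF Qb ↥(modularFunctionFieldBar N) := by omega
  have hRH : 2 * genusFF Qb ↥(modularFunctionFieldBar N)
      + (2 * genusFF Qb ↥(modularFunctionFieldBar N) + 1) ≤ deg 𝔯 + 1 := by
    push_cast at h𝔯deg
    omega
  -- the good translates
  have htrans := htr K₀.fixingSubgroup le_rfl
    (modSetting L hm htfix htreg htpole K₀.fixingSubgroup Sg₀ hS)
    (fun u hu => (mem_U L hm htfix htreg htpole K₀.fixingSubgroup Sg₀ hS).mp hu)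
    (fun D => mem_RatU_iff L hm htfix htreg htpole K₀.fixingSubgroup Sg₀ hS)
    (ClSeam.JU N K₀.fixingSubgroup) (fun x hx => ClSeam.mem_JU.mpr hx)
    (fun x hx => ClSeam.mem_JU.mp hx) cl hcl
    (2 * genusFF Qb ↥(modularFunctionFieldBar N) - 1) hMK κ hκfam hκli
    (2 * genusFF Qb ↥(modularFunctionFieldBar N) *
        (2 * genusFF Qb ↥(modularFunctionFieldBar N) + 1) + 1)
    (by nlinarith) (Nat.succ_pos _) (by rw [hrank]; exact coprime_aux2 _)
    (FixedBasis.w1 N _ hn) hw₁ 𝔯 hS₀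
  exact CurveInst.nonempty_curveD
    (modSetting L hm htfix htreg htpole K₀.fixingSubgroup Sg₀ hS) h
    (modSetting_mle L hm htfix htreg htpole K₀.fixingSubgroup Sg₀ hS)
    (modSetting_lip L hm htfix htreg htpole K₀.fixingSubgroup Sg₀ hS) hram harch_absFamily
    (genusFF Qb ↥(modularFunctionFieldBar N)) cl (FixedBasis.l N) (FixedBasis.w N) hw hcl0 hfun
    d₀ hrep (2 * genusFF Qb ↥(modularFunctionFieldBar N) - 1) hMK κ hκfam 𝔯 h𝔯inf h𝔯 hRH
    (2 * genusFF Qb ↥(modularFunctionFieldBar N) *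
        (2 * genusFF Qb ↥(modularFunctionFieldBar N) + 1) + 1)
    (FixedBasis.w1 N _ hn) hw₁
    (NorthInst.north_modSetting L hm htfix htreg htpole K₀.fixingSubgroup Sg₀ hS) htrans

/-- **S17 for the modular curve, from the closed term**: `J₀(N)(ℚ)` is finitely generated. -/
theorem fg (N : ℕ) [NeZero N] :
    AddGroup.FG ↥(FixedPoints.addSubgroup GQ (JZero N)) :=
  Fermat.Agent.MW.Top.OfCurveD.fg_of_exists_curveD N (exists_curveD N)

end Fermat.Agent.MW.Top.CurveDClosed
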