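/-
MW (S17), top level — the genus-zero case.

If the function field has genus `0`, every divisor of degree `0` is principal, so `JZero N` is the
trivial group and the group of rational points is finitely generated for a trivial reason.  The
height machinery may therefore assume `1 ≤ g`.
-/
import Mathlib
import Fermat.Agent.MW.Ht.GoodTranslate
import Fermat.Agent.Lib.FF.WeilCanonical
import Fermat.Agent.Lib.FF.ModLRed
import Fermat.Prelude.Def_ModularCurve_ArithmeticGalois

set_option autoImplicit false

noncomputable section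

namespace Fermat.Agent.MW.Top.GenusZero

open AlgebraicCurve ModularCurve Module
open Fermat.Agent.Lib.FF

variable {K F : Type*} [Field K] [Field F] [Algebra K F] {x₀ : F}

/-- In genus `0` every divisor of degree `0` is principal. -/
theorem mem_principal_of_genus_zero (h : IsFF1 K F x₀) (hg : genusFF K F = 0) {D : Divisor K F}
    (hD : Divisor.degree D = 0) : D ∈ Divisor.principal (K := K) (F := F) := by
  have hl : (finrank K (riemannRochSpace D) : ℤ) = Divisor.degree D + 1 - genusFF K F :=
    WeilCanonical.finrank_L_of_degree h (by rw [hg, hD]; norm_num)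
  rw [hD, hg] at hl
  have hl' : finrank K (riemannRochSpace D) = 1 := by
    have : (finrank K (riemannRochSpace D) : ℤ) = 1 := by rw [hl]; norm_num
    exact_mod_cast this
  obtain ⟨E, f, hf, hE, hEeq⟩ :=
    Fermat.Agent.MW.Ht.GoodTranslate.exists_effective_rep h D (by rw [hl']; exact one_pos)
  have hdegE : Divisor.degree E = 0 := by
    rw [Fermat.Agent.MW.Ht.GoodTranslate.degree_eq_of_eq h hf hEeq, hD]
  have hcard := Fermat.Agent.MW.Ht.GoodTranslate.card_support_le_degree h hE
  rw [hdegE] at hcard
  have hE0 : E = 0 := by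
    have h0 : E.support.card = 0 := by
      have : (E.support.card : ℤ) = 0 := le_antisymm hcard (by positivity)
      exact_mod_cast this
    exact Finsupp.support_eq_empty.mp (Finset.card_eq_zero.mp h0)
  refine ⟨f⁻¹, inv_ne_zero hf, fun v => ?_⟩
  have h1 := hEeq v
  rw [hE0, Finsupp.zero_apply] at h1
  rw [v.ord_inv]
  omega

/-- In genus `0` the group `Pic0` is trivial. -/
theorem pic0_eq_zero_of_genus_zero (h : IsFF1 K F x₀) (hg : genusFF K F = 0) (x : Pic0 K F) :
    x = 0 := by
  obtain ⟨⟨D, hD⟩, rfl⟩ := Pic0.mk_surjective x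
  refine (QuotientAddGroup.eq_zero_iff _).mpr ?_
  rw [AddSubgroup.mem_addSubgroupOf]
  exact mem_principal_of_genus_zero h hg hD

variable (N : ℕ) [NeZero N]

/-- In genus `0` the Jacobian `JZero N` is trivial. -/
theorem jZero_eq_zero
    (hg : genusFF (AlgebraicClosure ℚ) ↥(modularFunctionFieldBar N) = 0) (x : JZero N) : x = 0 :=
  pic0_eq_zero_of_genus_zero (isFF1_xL (AlgebraicClosure ℚ) N) hg x

/-- **S17 in genus `0`.** -/
theorem fg_of_genus_zero
    (hg : genusFF (AlgebraicClosure ℚ) ↥(modularFunctionFieldBar N) = 0) :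
    AddGroup.FG ↥(FixedPoints.addSubgroup
      (AlgebraicClosure ℚ ≃ₐ[ℚ] AlgebraicClosure ℚ) (JZero N)) := by
  have hsub : Subsingleton ↥(FixedPoints.addSubgroup
      (AlgebraicClosure ℚ ≃ₐ[ℚ] AlgebraicClosure ℚ) (JZero N)) :=
    ⟨fun a b => Subtype.ext (by rw [jZero_eq_zero N hg a.1, jZero_eq_zero N hg b.1])⟩
  infer_instance

end Fermat.Agent.MW.Top.GenusZero
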