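/-
MW (S17), top level — THE CLOSED TERM of `HG.CurveD` for the modular function field
(third, independent seat of the instance chain; helper55).

  [t, m = 2g + 1]   `Ht.RatCoord.exists_rational_coordinate_exact`
  → [LocalHt]       `HtM.LocalHtFF.exists_coords`, `localHtFF`
  → [𝔯, R–H]        `Ht.RamCount.exists_ramDiv`
  → [K₀]            `Gen.TranslatesB.exists_translates_modSetting`  (the good translates)
  → [U₀, Sg₀]       `K₀.fixingSubgroup`, `Ht.AbsQb.exists_finset_isComplement_fixingSubgroup`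
  → [𝒮]             `HG.SettingInst.modSetting`  (+ `RamInst`, `NorthInst`)
  → [J, cl, rep]    `Gen.ClSeam.exists_cl_fields_closed`
  → [w, κ, w₁]      `Gen.FixedBasis`
  → `HG.CurveInst.nonempty_curveD`.

`exists_curveD` is literally the hypothesis `H` of `Top.OfCurveD.fg_of_exists_curveD`;
`fg_fixedPoints` is the statement of S17 for every `N` (no hypothesis on `N`).
-/
import Mathlib
import Fermat.Agent.MW.Top.OfCurveD
import Fermat.Agent.MW.Ht.RatCoordExact
import Fermat.Agent.MW.HtM.LocalHtFF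
import Fermat.Agent.MW.HG.SettingInst
import Fermat.Agent.MW.HG.RamInst
import Fermat.Agent.MW.HG.NorthInst
import Fermat.Agent.MW.HG.CurveInst
import Fermat.Agent.MW.Ht.Transversal
import Fermat.Agent.MW.Ht.RamCount
import Fermat.Agent.MW.Gen.ClSeam
import Fermat.Agent.MW.Gen.FixedBasis
import Fermat.Agent.MW.Gen.TranslatesB

set_option autoImplicit false

noncomputable section

namespace Fermat.Agent.MW.Top.InstC

open AlgebraicCurve ModularCurve IntermediateField
open Fermat.Agent.MW.HtM Fermat.Agent.MW.HG Fermat.Agent.Lib.FF Fermat.Agent.Lib.FF.PlaceInf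
open Fermat.Agent.MW.Ht.AbsQb Fermat.Agent.MW.HG.SettingInst Fermat.Agent.MW.HtM.LocalHtFF
open Fermat.Agent.MW.Gen

local notation "Qb" => AlgebraicClosure ℚ
local notation "GQ" => (AlgebraicClosure ℚ ≃ₐ[ℚ] AlgebraicClosure ℚ)

variable (N : ℕ) [NeZero N]

set_option maxHeartbeats 1600000 in
/-- **The closed term**: in genus `≥ 1` there are a global setting for the function field of
`X₀(N)` over `ℚ̄` and a subgroup `J` of `J₀(N)` containing the rational points, with all the
facts `HG.CurveD`. -/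
theorem exists_curveD (hg : 1 ≤ genusFF Qb ↥(modularFunctionFieldBar N)) :
    ∃ (V : Type) (Ab : AbsFamily Qb V) (pinf : Place Qb ↥(modularFunctionFieldBar N))
      (t : ↥(modularFunctionFieldBar N)) (m : ℕ) (𝒮 : Setting Ab pinf t m)
      (J : AddSubgroup (JZero N)),
      (∀ x : JZero N, (∀ σ : GQ, σ • x = x) → x ∈ J) ∧ Nonempty (CurveD 𝒮 J) := by
  classical
  have h := Res.isFF1_modular N
  obtain ⟨t, htfix, htreg, htpole, httr, hfd, hrank⟩ :=
    Fermat.Agent.MW.Ht.RatCoord.exists_rational_coordinate_exact N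
  have := hfd
  obtain ⟨n₀, n₁, x₀, x₁, hc⟩ := exists_coords (K := Qb) t httr
  have hm : 0 < 2 * genusFF Qb ↥(modularFunctionFieldBar N) + 1 := Nat.succ_pos _
  -- the ramification divisor
  obtain ⟨𝔯, h𝔯inf, h𝔯, h𝔯deg⟩ := Fermat.Agent.MW.Ht.RamCount.exists_ramDiv h (placeInfL Qb N) t
    (2 * genusFF Qb ↥(modularFunctionFieldBar N) + 1) hm htreg htpole
  -- the number field of the good translates
  obtain ⟨K₀, hK₀, htr⟩ := TranslatesB.exists_translates_modSetting N
    (localHtFF absFamily httr hc hm htreg htpole) hm htfix htreg htpole hrank 𝔯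
  have := hK₀
  obtain ⟨Sg₀, -, -, hS⟩ := exists_finset_isComplement_fixingSubgroup K₀
  -- the class map and the moving lemma
  obtain ⟨cl, d₀, hcl, hcl0, hfun, hrep⟩ := ClSeam.exists_cl_fields_closed
    (localHtFF absFamily httr hc hm htreg htpole) hm htfix htreg htpole K₀.fixingSubgroup Sg₀ hS
  -- the fixed bases
  have hΓ : ∀ g ∈ (modSetting (localHtFF absFamily httr hc hm htreg htpole) hm htfix htreg htpole
      K₀.fixingSubgroup Sg₀ hS).Γ,
      ∃ σ : GQ, arithmeticGalois (modularFunctionFieldFull N) σ = g := fun g hg =>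
    (mem_Γ (localHtFF absFamily httr hc hm htreg htpole) hm htfix htreg htpole
      K₀.fixingSubgroup Sg₀ hS).mp hg
  have hw : ∀ M, CurveInst.IsFixedBasis
      (modSetting (localHtFF absFamily httr hc hm htreg htpole) hm htfix htreg htpole
        K₀.fixingSubgroup Sg₀ hS) (FixedBasis.w N M) M := fun M =>
    ⟨fun g hg i => by
      obtain ⟨σ, rfl⟩ := hΓ g hg
      exact FixedBasis.w_fixed N M i σ, FixedBasis.w_li N M, FixedBasis.w_span N M⟩
  have hl : FixedBasis.l N (2 * genusFF Qb ↥(modularFunctionFieldBar N) - 1)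
      = genusFF Qb ↥(modularFunctionFieldBar N) := FixedBasis.l_canon N hg
  have hκ : CurveInst.IsFixedBasis
      (modSetting (localHtFF absFamily httr hc hm htreg htpole) hm htfix htreg htpole
        K₀.fixingSubgroup Sg₀ hS)
      (fun i : Fin (genusFF Qb ↥(modularFunctionFieldBar N)) =>
        FixedBasis.w N (2 * genusFF Qb ↥(modularFunctionFieldBar N) - 1) (Fin.cast hl.symm i))
      (2 * genusFF Qb ↥(modularFunctionFieldBar N) - 1) := by
    refine ⟨fun g hg i => (hw _).fixed g hg _, ?_, ?_⟩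
    · exact (FixedBasis.w_li N _).comp _ (Fin.cast_injective _)
    · rw [← FixedBasis.w_span]
      congr 1
      exact (Fin.castOrderIso hl.symm).surjective.range_comp _
  have hn : genusFF Qb ↥(modularFunctionFieldBar N)
      ≤ 2 * genusFF Qb ↥(modularFunctionFieldBar N)
          * (2 * genusFF Qb ↥(modularFunctionFieldBar N) + 1) + 1 + 1 := by
    nlinarith
  have hw₁ : CurveInst.IsFixedBasis
      (modSetting (localHtFF absFamily httr hc hm htreg htpole) hm htfix htreg htpole
        K₀.fixingSubgroup Sg₀ hS)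
      (FixedBasis.w1 N _ hn)
      (2 * genusFF Qb ↥(modularFunctionFieldBar N)
          * (2 * genusFF Qb ↥(modularFunctionFieldBar N) + 1) + 1
        + genusFF Qb ↥(modularFunctionFieldBar N)) :=
    ⟨fun g hg i => by
      obtain ⟨σ, rfl⟩ := hΓ g hg
      exact FixedBasis.w1_fixed N hn i σ, FixedBasis.w1_li N hn, FixedBasis.w1_span N hn⟩
  refine ⟨Pla, absFamily, placeInfL Qb N, t, 2 * genusFF Qb ↥(modularFunctionFieldBar N) + 1,
    modSetting (localHtFF absFamily httr hc hm htreg htpole) hm htfix htreg htpole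
      K₀.fixingSubgroup Sg₀ hS,
    ClSeam.JU N K₀.fixingSubgroup, fun x hx => ClSeam.fixed_mem_JU _ x hx, ?_⟩
  exact CurveInst.nonempty_curveD _ h
    (modSetting_mle _ hm htfix htreg htpole K₀.fixingSubgroup Sg₀ hS)
    (modSetting_lip _ hm htfix htreg htpole K₀.fixingSubgroup Sg₀ hS)
    (RamInst.ram_modSetting httr hc hm htfix htreg htpole K₀.fixingSubgroup Sg₀ hS)
    harch_absFamily (genusFF Qb ↥(modularFunctionFieldBar N)) cl (FixedBasis.l N) (FixedBasis.w N)
    hw hcl0 hfun d₀ hrep (2 * genusFF Qb ↥(modularFunctionFieldBar N) - 1) (by omega) _ hκ.fam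
    𝔯 h𝔯inf h𝔯 (by omega) _ (FixedBasis.w1 N _ hn) hw₁
    (NorthInst.north_modSetting _ hm htfix htreg htpole K₀.fixingSubgroup Sg₀ hS)
    (htr K₀.fixingSubgroup le_rfl Sg₀ hS (ClSeam.JU N K₀.fixingSubgroup)
      (fun x hx => ClSeam.mem_JU.mp hx) (fun x hx => ClSeam.mem_JU.mpr hx) cl hcl
      _ _ rfl rfl _
      (fun i => TranslatesB.mem_rr_of_isFixedBasis N _ (by omega) hκ i) hκ.li
      (FixedBasis.w1 N _ hn) hw₁)

/-- **Mordell–Weil for `J₀(N)`** (the statement of S17, for every `N`): the Galois-fixed points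
of `J₀(N)(ℚ̄)` form a finitely generated group. -/
theorem fg_fixedPoints :
    AddGroup.FG ↥(FixedPoints.addSubgroup
      (AlgebraicClosure ℚ ≃ₐ[ℚ] AlgebraicClosure ℚ) (JZero N)) :=
  Fermat.Agent.MW.Top.OfCurveD.fg_of_exists_curveD N (exists_curveD N)

end Fermat.Agent.MW.Top.InstC
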