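/-
MW / top — SEAM TEST of the instance chain (second seat of `MW/Top/Inst.lean`):

  [t, m]   `Ht.RatCoord.exists_rational_coordinate_exact`  (m = 2g + 1, `[F : Qb(t)] = 2g + 1`)
  → [coordinates x₀, x₁]   `HtM.LocalHtFF.exists_coords`
  → [LocalHt]   `HtM.LocalHtFF.localHtFF`  (`δ = TwoChart.dlt absFamily t x₀ x₁`)
  → [k, U, Sg]   `Ht.AbsQb.exists_finset_isComplement_fixingSubgroup`
  → [Setting]   `HG.SettingInst.modSetting`  with `MLe`, `Lip`, `RamLe` (`HG.RamInst`).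

`exists_modSetting` packages the chain for a number field `k ⊆ Qb`.
-/
import Mathlib
import Fermat.Agent.MW.Ht.RatCoordExact
import Fermat.Agent.MW.HtM.LocalHtFF
import Fermat.Agent.MW.HG.SettingInst
import Fermat.Agent.MW.HG.RamInst
import Fermat.Agent.MW.Ht.Transversal

set_option autoImplicit false

noncomputable section

namespace Fermat.Agent.MW.Top.InstSeamB

open AlgebraicCurve ModularCurve IntermediateField
open Fermat.Agent.MW.HtM Fermat.Agent.MW.HG Fermat.Agent.Lib.FF Fermat.Agent.Lib.FF.PlaceInf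
open Fermat.Agent.MW.Ht.AbsQb Fermat.Agent.MW.HG.SettingInst Fermat.Agent.MW.HtM.LocalHtFF

local notation "Qb" => AlgebraicClosure ℚ
local notation "GQ" => (AlgebraicClosure ℚ ≃ₐ[ℚ] AlgebraicClosure ℚ)

variable (N : ℕ) [NeZero N]

/-- The genus of `X_0(N)`. -/
abbrev gN : ℕ := genusFF Qb ↥(modularFunctionFieldBar N)

/-- **The instance chain up to the `Setting`**, for a number field `k ⊆ Qb`: a `G_ℚ`-fixed
coordinate `t` of exact pole order `2g + 1` at `∞`, chart coordinates `x₀`, `x₁`, a finite left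
transversal `Sg₀` of `Gal(Qb/k)` and the modular `Setting` over `k` with local distance
`TwoChart.dlt absFamily t x₀ x₁`; it satisfies `MLe`, `Lip` and `RamLe`. The setting is the literal
term `modSetting (localHtFF absFamily httr hc hm htreg htpole) hm htfix htreg htpole
k.fixingSubgroup Sg₀ hS`. -/
theorem exists_modSetting (k : IntermediateField ℚ Qb) [FiniteDimensional ℚ k] :
    ∃ (t : ↥(modularFunctionFieldBar N)) (_ : Transcendental Qb t)
      (_ : FiniteDimensional Qb⟮t⟯ ↥(modularFunctionFieldBar N))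
      (n₀ n₁ : ℕ) (x₀ : Fin n₀ → ↥(modularFunctionFieldBar N))
      (x₁ : Fin n₁ → ↥(modularFunctionFieldBar N)) (_ : IsCoords (K := Qb) t x₀ x₁)
      (Sg₀ : Finset GQ)
      (𝒮 : Setting absFamily (placeInfL Qb N) t (2 * gN N + 1)),
      (∀ σ : GQ, gal N σ • t = t) ∧
      Module.finrank Qb⟮t⟯ ↥(modularFunctionFieldBar N) = 2 * gN N + 1 ∧
      (1 : GQ) ∈ Sg₀ ∧ Sg₀.card = Module.finrank ℚ k ∧
      Subgroup.IsComplement (Sg₀ : Set GQ) (k.fixingSubgroup : Set GQ) ∧
      𝒮.δ = TwoChart.dlt absFamily t x₀ x₁ ∧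
      𝒮.Γ = (gal N).range ∧ 𝒮.U = k.fixingSubgroup.map (gal N) ∧
      𝒮.Sg = Sg₀.map (galEmb N) ∧
      𝒮.MLe ∧ 𝒮.Lip ∧ 𝒮.RamLe := by
  obtain ⟨t, htfix, htreg, htpole, httr, hfd, hrank⟩ :=
    Fermat.Agent.MW.Ht.RatCoord.exists_rational_coordinate_exact N
  have := hfd
  obtain ⟨n₀, n₁, x₀, x₁, hc⟩ := exists_coords (K := Qb) t httr
  obtain ⟨Sg₀, h1, hcard, hS⟩ := exists_finset_isComplement_fixingSubgroup k
  have hm : 0 < 2 * gN N + 1 := Nat.succ_pos _
  refine ⟨t, httr, hfd, n₀, n₁, x₀, x₁, hc, Sg₀,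
    modSetting (localHtFF absFamily httr hc hm htreg htpole) hm htfix htreg htpole
      k.fixingSubgroup Sg₀ hS,
    htfix, hrank, h1, hcard, hS, rfl, rfl, rfl, rfl,
    modSetting_mle _ hm htfix htreg htpole k.fixingSubgroup Sg₀ hS,
    modSetting_lip _ hm htfix htreg htpole k.fixingSubgroup Sg₀ hS,
    RamInst.ram_modSetting httr hc hm htfix htreg htpole k.fixingSubgroup Sg₀ hS⟩

end Fermat.Agent.MW.Top.InstSeamB
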