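/-
MW / top — SEAM TEST of the whole instance term (helper78): the chain

  [t, m = 2g + 1]  `Ht.RatCoord.exists_rational_coordinate_exact`
  → [coordinates, LocalHt]  `HtM.LocalHtFF`
  → [𝔯]  `Ht.RamDiv.exists_ramDiv_modular`,  [S₀] = the `t`-fibres of the support of `𝔯`
  → [K₀]  `Gen.TranslatesClosed.exists_translates`  (the number field of the good translates)
  → [U₀ = Gal(ℚ̄/K₀), Sg₀]  `Ht.AbsQb.exists_finset_isComplement_fixingSubgroup`
  → [Setting]  `HG.SettingInst.modSetting`  (`MLe`, `Lip`, `RamLe`, Northcott)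
  → [cl, d₀]  `Gen.ClSeam.exists_cl_fields_closed`
  → [w, κ, w₁]  `Gen.FixedBasis`
  → `HG.CurveInst.nonempty_curveD`.

`exists_curveD` is the literal hypothesis `H` of `Top.OfCurveD.fg_of_exists_curveD` (for every
`N`, in genus `≥ 1`), and `fg_invariants` is the resulting finite generation of `J₀(N)(ℚ)`.
-/
import Mathlib
import Fermat.Agent.MW.Gen.TranslatesClosed
import Fermat.Agent.MW.Gen.ClSeam
import Fermat.Agent.MW.Gen.FixedBasis
import Fermat.Agent.MW.HG.NorthInst
import Fermat.Agent.MW.HG.RamInst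
import Fermat.Agent.MW.Ht.RatCoordExact
import Fermat.Agent.MW.HtM.LocalHtFF
import Fermat.Agent.MW.Ht.Transversal
import Fermat.Agent.MW.Top.OfCurveD

set_option autoImplicit false
set_option linter.style.haveILetI false

noncomputable section

namespace Fermat.Agent.MW.Top.InstSeamT

open AlgebraicCurve ModularCurve IntermediateField Module
open Fermat.Agent.MW Fermat.Agent.MW.HtM Fermat.Agent.MW.HQ Fermat.Agent.MW.HG
open Fermat.Agent.Lib.FF Fermat.Agent.Lib.FF.PlaceInf
open Fermat.Agent.MW.Ht.AbsQb Fermat.Agent.MW.HG.SettingInst Fermat.Agent.MW.HtM.LocalHtFF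
open Fermat.Agent.MW.Gen

local notation "Qb" => AlgebraicClosure ℚ
local notation "GQ" => (AlgebraicClosure ℚ ≃ₐ[ℚ] AlgebraicClosure ℚ)

variable (N : ℕ) [NeZero N]

set_option maxHeartbeats 1600000 in
/-- **The term of `HG.CurveD` for `X₀(N)`** (genus `≥ 1`): the literal hypothesis `H` of
`Top.OfCurveD.fg_of_exists_curveD`. -/
theorem exists_curveD (hg : 1 ≤ genusFF Qb ↥(modularFunctionFieldBar N)) :
    ∃ (V : Type) (Ab : AbsFamily Qb V) (pinf : Place Qb ↥(modularFunctionFieldBar N))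
      (t : ↥(modularFunctionFieldBar N)) (m : ℕ) (𝒮 : Setting Ab pinf t m)
      (J : AddSubgroup (JZero N)),
      (∀ x : JZero N, (∀ σ : GQ, σ • x = x) → x ∈ J) ∧ Nonempty (CurveD 𝒮 J) := by
  classical
  -- (1) the coordinate
  obtain ⟨t, htfix, htreg, htpole, httr, hfd, hrank⟩ :=
    Fermat.Agent.MW.Ht.RatCoord.exists_rational_coordinate_exact N
  haveI := hfd
  obtain ⟨n₀, n₁, x₀, x₁, hc⟩ := exists_coords (K := Qb) t httr
  have hm : 0 < 2 * genusFF Qb ↥(modularFunctionFieldBar N) + 1 := Nat.succ_pos _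
  -- (2) the ramification divisor and the set `S₀`
  obtain ⟨𝔯, h𝔯inf, h𝔯, h𝔯deg⟩ :=
    Fermat.Agent.MW.Ht.RamDiv.exists_ramDiv_modular (N := N) htreg htpole hm
  have htne : ∀ c : Qb, t ≠ algebraMap Qb ↥(modularFunctionFieldBar N) c := fun c hc =>
    httr (hc ▸ isAlgebraic_algebraMap c)
  obtain ⟨S₀, hS₀⟩ : ∃ S₀ : Finset (Place Qb ↥(modularFunctionFieldBar N)),
      ∀ P : Place Qb ↥(modularFunctionFieldBar N),
        (∃ q ∈ 𝔯.support, pval P t = pval q t) → P ∈ S₀ := by
    refine ⟨𝔯.support.biUnion fun q =>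
      (Fermat.Agent.MW.Ht.RepPt.finite_pval_eq N htne (pval q t)).toFinset, fun P hP => ?_⟩
    obtain ⟨q, hq, hPq⟩ := hP
    rw [Finset.mem_biUnion]
    exact ⟨q, hq, by rw [Set.Finite.mem_toFinset]; exact hPq⟩
  -- (3) the number field of the good translates
  have hco : Nat.Coprime (finrank Qb⟮t⟯ ↥(modularFunctionFieldBar N))
      (genusFF Qb ↥(modularFunctionFieldBar N) + 1) := by
    rw [hrank]
    exact Nat.isCoprime_iff_coprime.mp ⟨-1, 2, by push_cast; ring⟩
  obtain ⟨K₀, hK₀, htr⟩ := TranslatesClosed.exists_translates N t htreg httr hco S₀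
  haveI := hK₀
  -- (4) the setting over `K₀`
  obtain ⟨Sg₀, -, -, hS⟩ := exists_finset_isComplement_fixingSubgroup K₀
  refine ⟨Pla, absFamily, placeInfL Qb N, t, 2 * genusFF Qb ↥(modularFunctionFieldBar N) + 1,
    modSetting (localHtFF absFamily httr hc hm htreg htpole) hm htfix htreg htpole
      K₀.fixingSubgroup Sg₀ hS,
    ClSeam.JU N K₀.fixingSubgroup, fun x hx => ClSeam.fixed_mem_JU _ x hx, ?_⟩
  obtain ⟨cl, d₀, hcl, hcl0, hfun, hrep⟩ :=
    ClSeam.exists_cl_fields_closed (localHtFF absFamily httr hc hm htreg htpole) hm htfix htreg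
      htpole K₀.fixingSubgroup Sg₀ hS
  -- the fixed bases
  have hΓ : ∀ γ ∈ (modSetting (localHtFF absFamily httr hc hm htreg htpole) hm htfix htreg htpole
      K₀.fixingSubgroup Sg₀ hS).Γ, ∃ σ : GQ, gal N σ = γ := fun γ hγ =>
    (mem_Γ (localHtFF absFamily httr hc hm htreg htpole) hm htfix htreg htpole
      K₀.fixingSubgroup Sg₀ hS).mp hγ
  have hw : ∀ M, CurveInst.IsFixedBasis (modSetting (localHtFF absFamily httr hc hm htreg htpole)
      hm htfix htreg htpole K₀.fixingSubgroup Sg₀ hS) (FixedBasis.w N M) M := fun M =>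
    ⟨fun γ hγ i => by
      obtain ⟨σ, rfl⟩ := hΓ γ hγ
      exact FixedBasis.w_fixed N M i σ, FixedBasis.w_li N M, FixedBasis.w_span N M⟩
  have hl : FixedBasis.l N (2 * genusFF Qb ↥(modularFunctionFieldBar N) - 1)
      = genusFF Qb ↥(modularFunctionFieldBar N) := FixedBasis.l_canon N (by omega)
  have hκ : (modSetting (localHtFF absFamily httr hc hm htreg htpole) hm htfix htreg htpole
      K₀.fixingSubgroup Sg₀ hS).Fam
      (fun i : Fin (genusFF Qb ↥(modularFunctionFieldBar N)) =>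
        FixedBasis.w N (2 * genusFF Qb ↥(modularFunctionFieldBar N) - 1) (Fin.cast hl.symm i))
      (2 * genusFF Qb ↥(modularFunctionFieldBar N) - 1) :=
    ⟨fun i => (hw _).fam.reg _, fun i => (hw _).fam.pole _, fun γ hγ i => (hw _).fixed γ hγ _⟩
  have hκli : LinearIndependent Qb
      (fun i : Fin (genusFF Qb ↥(modularFunctionFieldBar N)) =>
        FixedBasis.w N (2 * genusFF Qb ↥(modularFunctionFieldBar N) - 1) (Fin.cast hl.symm i)) :=
    (FixedBasis.w_li N (2 * genusFF Qb ↥(modularFunctionFieldBar N) - 1)).comp _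
      (Fin.cast_injective _)
  have hn : genusFF Qb ↥(modularFunctionFieldBar N)
      ≤ (2 * genusFF Qb ↥(modularFunctionFieldBar N)
          * (2 * genusFF Qb ↥(modularFunctionFieldBar N) + 1) + 1) + 1 := by nlinarith
  have hw₁ : CurveInst.IsFixedBasis (modSetting (localHtFF absFamily httr hc hm htreg htpole)
      hm htfix htreg htpole K₀.fixingSubgroup Sg₀ hS) (FixedBasis.w1 N _ hn)
      ((2 * genusFF Qb ↥(modularFunctionFieldBar N)
          * (2 * genusFF Qb ↥(modularFunctionFieldBar N) + 1) + 1)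
        + genusFF Qb ↥(modularFunctionFieldBar N)) :=
    ⟨fun γ hγ i => by
      obtain ⟨σ, rfl⟩ := hΓ γ hγ
      exact FixedBasis.w1_fixed N hn i σ, FixedBasis.w1_li N hn, FixedBasis.w1_span N hn⟩
  have hRH : 2 * genusFF Qb ↥(modularFunctionFieldBar N)
      + (2 * genusFF Qb ↥(modularFunctionFieldBar N) + 1) ≤ deg 𝔯 + 1 := by
    have h1 := h𝔯deg
    push_cast at h1
    omega
  have hcop : Nat.Coprime (finrank Qb⟮t⟯ ↥(modularFunctionFieldBar N))
      (2 * genusFF Qb ↥(modularFunctionFieldBar N)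
        * (2 * genusFF Qb ↥(modularFunctionFieldBar N) + 1) + 1) := by
    rw [hrank]
    exact (Nat.coprime_mul_right_add_right _ 1 _).mpr (Nat.coprime_one_right _)
  have hMK : 2 * genusFF Qb ↥(modularFunctionFieldBar N) - 1 + 1
      ≤ 2 * genusFF Qb ↥(modularFunctionFieldBar N) := by omega
  have h2g : 2 * genusFF Qb ↥(modularFunctionFieldBar N)
      ≤ 2 * genusFF Qb ↥(modularFunctionFieldBar N)
          * (2 * genusFF Qb ↥(modularFunctionFieldBar N) + 1) + 1 := by nlinarith
  exact CurveInst.nonempty_curveD _ (Res.isFF1_modular N)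
    (modSetting_mle _ hm htfix htreg htpole K₀.fixingSubgroup Sg₀ hS)
    (modSetting_lip _ hm htfix htreg htpole K₀.fixingSubgroup Sg₀ hS)
    (RamInst.ram_modSetting httr hc hm htfix htreg htpole K₀.fixingSubgroup Sg₀ hS)
    harch_absFamily (genusFF Qb ↥(modularFunctionFieldBar N)) cl (FixedBasis.l N) (FixedBasis.w N)
    hw hcl0 hfun d₀ hrep (2 * genusFF Qb ↥(modularFunctionFieldBar N) - 1) hMK _ hκ 𝔯
    h𝔯inf h𝔯 hRH _ (FixedBasis.w1 N _ hn) hw₁
    (NorthInst.north_modSetting _ hm htfix htreg htpole K₀.fixingSubgroup Sg₀ hS)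
    (htr K₀.fixingSubgroup le_rfl _
      (fun u hu => (mem_U (localHtFF absFamily httr hc hm htreg htpole) hm htfix htreg htpole
        K₀.fixingSubgroup Sg₀ hS).mp hu)
      (fun D => mem_RatU_iff (localHtFF absFamily httr hc hm htreg htpole) hm htfix htreg htpole
        K₀.fixingSubgroup Sg₀ hS)
      (ClSeam.JU N K₀.fixingSubgroup) (fun x hx => ClSeam.mem_JU.mpr hx)
      (fun x hx => ClSeam.mem_JU.mp hx) cl hcl
      (2 * genusFF Qb ↥(modularFunctionFieldBar N) - 1) hMK _ hκ hκli _ h2g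
      (Nat.succ_pos _) hcop (FixedBasis.w1 N _ hn) hw₁ 𝔯 hS₀)

/-- **Mordell–Weil for `J₀(N)` over `ℚ`** (every level `N`, genus `≥ 1` included through
`Top.OfCurveD`): the group of `G_ℚ`-invariants of `JZero N` is finitely generated. -/
theorem fg_invariants :
    AddGroup.FG ↥(FixedPoints.addSubgroup GQ (JZero N)) :=
  Fermat.Agent.MW.Top.OfCurveD.fg_of_exists_curveD N (exists_curveD N)

end Fermat.Agent.MW.Top.InstSeamT
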